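import Fermat.Agent.S56.GW.Dual.D6.Main
import Fermat.Agent.S56.GW.Dual.Global

/-!
# S56, [GW-DUAL] cell D6: global reciprocity from the seam [X1] of `Dual/Global.lean`
(prefix `s56gdc_`)

* `s56gdc_D5a_of_X1 : s56gd_X1_stmt → s56gdc_D5a_stmt` (the restriction map is
  `s56gd_ra M hsm (ofLev b) hb`);
* `s56gdc_rec : s56gd_X1_stmt → s56gd_Rec_stmt` : **the cell [D6]**.
-/

set_option autoImplicit false

open CategoryTheory groupCohomology ExtCitation

namespace Fermat.Agent.S56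

open Fermat.Agent.S55

local notation "GQ" => (AlgebraicClosure ℚ ≃ₐ[ℚ] AlgebraicClosure ℚ)

/-- The seam [X1] of `Dual/Global.lean` gives the input of `s56gdc_main`. -/
theorem s56gdc_D5a_of_X1 (hX : s56gd_X1_stmt) : s56gdc_D5a_stmt := by
  intro p _ hp2 M _ hsm S hpS hur x a₀
  obtain ⟨b, hab, hb, ψ, φF, hsum, hloc⟩ := hX p hp2 M hsm S hpS hur x a₀
  refine ⟨b, hab, s56gd_ra M hsm (s56gd_Fld.ofLev b) hb,
    s56gd_ra_q M hsm (s56gd_Fld.ofLev b) hb, ψ, φF, hsum, fun q => ?_⟩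
  rw [hloc q]
  congr 1

/-- **[D6]: global reciprocity** from the seam [X1]. -/
theorem s56gdc_rec (hX : s56gd_X1_stmt) : s56gd_Rec_stmt :=
  s56gdc_main (s56gdc_D5a_of_X1 hX)

end Fermat.Agent.S56
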