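import Fermat.Agent.S55.Level.LES
import Fermat.Agent.S55.Level.Finite

/-!
# S56, [GW-DUAL] cell D6 (reciprocity): the abstract local-global chain (prefix `s56gdc_`)

Pure level formalism (S55/Level).  `s56gdc_H1_congr`, `s56gdc_H2_congr`: morphisms with the same
group map and coefficient map induce the same maps.  `s56gdc_chain`:
`coef_* (δ¹ (loc y')) = infl (τ_* res (δ¹ y'))` for a finite-level class `y'`.
-/

set_option autoImplicit false

namespace Fermat.Agent.S56

open Fermat.Agent.S55

section Congr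

variable {G : Type*} [Group G] {H : Type*} [Group H]
  {L : LevelSys G} {X : Type*} [AddCommGroup X] [DistribMulAction G X]
  {LH : LevelSys H} {Y : Type*} [AddCommGroup Y] [DistribMulAction H Y]

/-- Two morphisms with the same group map and the same coefficient map induce the same map on
`H²`. -/
theorem s56gdc_H2_congr (m m' : LvMor L X LH Y) (hf : ∀ h, m.f h = m'.f h)
    (hφ : ∀ x, m.φ x = m'.φ x) (z : lvH2 L X) : m.H2 z = m'.H2 z := by
  obtain ⟨c, rfl⟩ := lvH2mk_surjective z
  rw [LvMor.H2_mk, LvMor.H2_mk]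
  congr 1
  apply Subtype.ext
  funext p
  show m.φ ((c : G × G → X) (m.f p.1, m.f p.2)) = m'.φ ((c : G × G → X) (m'.f p.1, m'.f p.2))
  rw [hf, hf, hφ]

/-- Two morphisms with the same group map and the same coefficient map induce the same map on
`H¹`. -/
theorem s56gdc_H1_congr (m m' : LvMor L X LH Y) (hf : ∀ h, m.f h = m'.f h)
    (hφ : ∀ x, m.φ x = m'.φ x) (z : lvH1 L X) : m.H1 z = m'.H1 z := by
  obtain ⟨c, rfl⟩ := lvH1mk_surjective z
  rw [LvMor.H1_mk, LvMor.H1_mk]
  congr 1
  apply Subtype.ext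
  funext g
  show m.φ ((c : G → X) (m.f g)) = m'.φ ((c : G → X) (m'.f g))
  rw [hf, hφ]

end Congr

section Chain

variable {G : Type*} [Group G] {L : LevelSys G}
  {Γ : Type*} [Group Γ] [Finite Γ] {D : Type*} [Group D] [Finite D]
  {R F N Ω : Type*} [AddCommGroup R] [DistribMulAction G R] [AddCommGroup F]
  [DistribMulAction G F] [AddCommGroup N] [DistribMulAction G N] [AddCommGroup Ω]
  [DistribMulAction G Ω]
  {R' F' N' : Type*} [AddCommGroup R'] [DistribMulAction Γ R'] [AddCommGroup F']
  [DistribMulAction Γ F'] [AddCommGroup N'] [DistribMulAction Γ N']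
  {X : Type*} [AddCommGroup X] [DistribMulAction D X]

/-- **The local-global chain of [D6] in level cohomology.**  `E'` is the lattice sequence at a
finite level `Γ`, `E` the lattice sequence over the local group `G`, `t` the
restriction-inflation morphism, `Q` the finite quotient `D` of `G` for the module `Ω`, `mτ` the
restriction to `D` followed by the coefficient map `τ : R' → X`, `coef` the coefficient map
`Q.φ ∘ τ : R → Ω`.  Then `coef_* (δ¹ (loc y')) = infl (τ_* res (δ¹ y'))`. -/
theorem s56gdc_chain (E : LvSES G R F N) (hF : L.IsSmooth F) (E' : LvSES Γ R' F' N')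
    (hF' : (LevelSys.trivial Γ).IsSmooth F')
    (t : LvSESMor E' (LevelSys.trivial Γ) E L) (Q : LvQuot L Ω D X)
    (mτ : LvMor (LevelSys.trivial Γ) R' (LevelSys.trivial D) X) (coef : LvMor L R L Ω)
    (hf : ∀ g, t.mA.f (coef.f g) = mτ.f (Q.q g))
    (hφ : ∀ r', coef.φ (t.mA.φ r') = Q.φ (mτ.φ r'))
    (y' : lvH1 (LevelSys.trivial Γ) N') :
    coef.H2 (E.δ1 L hF (t.mC.H1 y')) =
      Q.mor.H2 (mτ.H2 (E'.δ1 (LevelSys.trivial Γ) hF' y')) := by
  rw [← t.δ1_comm hF' hF, ← LvMor.H2_comp, ← LvMor.H2_comp]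
  exact s56gdc_H2_congr _ _ hf hφ _

end Chain

end Fermat.Agent.S56
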