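import Fermat.Agent.S55.Dual.LevelDuality

/-!
# S56, [GW-DUAL] cell D6 (reciprocity), finite-level core (prefix `s56gdc_`)

`s56gdc_core`: for `ld_Data` (a global `p`-class module `C` with semi-local modules `j_q : J_q ⟶ C`
and local class modules), morphisms `ψ_q : R ⟶ J_q`, `φ_F : F ⟶ C` with
`Σ_q j_q ∘ ψ_q = φ_F ∘ i` and a `p`-primary `z ∈ H²(Γ, R)` with `i_* z = 0`:
`Σ_q inv_q ((pr_q ∘ res ψ_q)_* res_{D_q} z) = 0` (sum formula `ld_sum` + additivity).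
-/

set_option autoImplicit false

open CategoryTheory groupCohomology

namespace Fermat.Agent.S56

open Fermat.Agent.S55

section Core

variable {Γ : Type} [Group Γ] {p : ℕ} {ι : Type} (𝔻 : ld_Data p Γ ι)

/-- **Finite-level reciprocity.**  If `ψ_q : R ⟶ J_q` (`q ∈ s`) and `φ_F : F ⟶ C` satisfy
`Σ_q j_q ∘ ψ_q = φ_F ∘ i`, then for a `p`-primary class `z ∈ H²(Γ, R)` with `i_* z = 0` the sum of
the local invariants of `(pr_q ∘ res ψ_q)_* (res_{D_q} z)` vanishes. -/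
theorem s56gdc_core (s : Finset ι) {R F : Rep.{0} ℤ Γ} (i : R ⟶ F) (ψ : ∀ q, R ⟶ 𝔻.Jq q)
    (φF : F ⟶ 𝔻.C) (h : ∑ q ∈ s, ψ q ≫ 𝔻.j q = i ≫ φF)
    (z : groupCohomology R 2) (hz : tt_IsPPrimary p z) (hiz : (tt_coeffMap i 2).hom z = 0) :
    ∑ q ∈ s, (𝔻.Pq q).invTop ((tt_coeffMap
      ((Rep.resFunctor (𝔻.D q).subtype).map (ψ q) ≫ 𝔻.pr q) 2).hom
        ((tt_resMap (𝔻.D q) R 2).hom z)) = 0 := by
  let y : ld_P (p := p) R := ⟨z, hz⟩
  have h1 : ∀ q, (𝔻.Pq q).invTop ((tt_coeffMap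
      ((Rep.resFunctor (𝔻.D q).subtype).map (ψ q) ≫ 𝔻.pr q) 2).hom
        ((tt_resMap (𝔻.D q) R 2).hom z)) = ld_θ 𝔻 R (ld_a 𝔻 R q (ψ q)) y := by
    intro q
    rw [ld_sum, ld_θq_apply]
    rfl
  simp_rw [h1]
  have key : ∀ t : Finset ι, ∑ q ∈ t, ld_θ 𝔻 R (ld_a 𝔻 R q (ψ q)) y
      = ld_θ 𝔻 R (∑ q ∈ t, ld_a 𝔻 R q (ψ q)) y := by
    intro t
    classical
    induction t using Finset.induction_on with
    | empty =>
      rw [Finset.sum_empty, Finset.sum_empty, map_zero]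
      rfl
    | insert a t ha ih =>
      rw [Finset.sum_insert ha, Finset.sum_insert ha, map_add, ih]
      rfl
  rw [key]
  have h2 : ∑ q ∈ s, ld_a 𝔻 R q (ψ q) = i ≫ φF := h
  rw [h2, ld_θ_apply, ld_coeffMap_comp_apply]
  show 𝔻.P.invTop ((tt_coeffMap φF 2).hom ((tt_coeffMap i 2).hom z)) = 0
  rw [hiz, map_zero, map_zero]

end Core

end Fermat.Agent.S56
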