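import Fermat.Agent.S56.GW.Dual.Seams2
import Fermat.Agent.S56.GW.Dual.D6.Chain
import Fermat.Agent.S55.Dual.HomBridge

set_option autoImplicit false
set_option linter.unusedSectionVars false

open CategoryTheory groupCohomology ExtCitation

namespace Fermat.Agent.S56

open Fermat.Agent.S55

local notation "Qbar" => AlgebraicClosure ℚ
local notation "GQ" => (AlgebraicClosure ℚ ≃ₐ[ℚ] AlgebraicClosure ℚ)

noncomputable section

/-! ### Level cohomology of finite groups and Mathlib's `H²` -/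

section Abs

variable {Γ : Type} [Group Γ] [Finite Γ]

/-- The comparison isomorphism `lvH2 (trivial Γ) A ≃+ H²(Γ, A)`. -/
abbrev s56gdc_H2e (A : Rep.{0} ℤ Γ) :
    lvH2 (LevelSys.trivial Γ) (tl_Act A) ≃+ groupCohomology A 2 :=
  lvH2Equiv A (tl_sf_actEquiv A) (fun _ _ => rfl)

/-- A coefficient morphism induces `tt_coeffMap` on Mathlib's `H²`. -/
theorem s56gdc_H2e_coeff {A B : Rep.{0} ℤ Γ} (i : A ⟶ B)
    (m : LvMor (LevelSys.trivial Γ) (tl_Act A) (LevelSys.trivial Γ) (tl_Act B))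
    (hf : ∀ g, m.f g = g) (hφ : ∀ x, m.φ x = i.hom x)
    (y : lvH2 (LevelSys.trivial Γ) (tl_Act A)) :
    s56gdc_H2e B (m.H2 y) = (tt_coeffMap i 2).hom (s56gdc_H2e A y) := by
  have h := lvH2Equiv_map A B (tl_sf_actEquiv A) (fun _ _ => rfl) (tl_sf_actEquiv B)
    (fun _ _ => rfl)
    (LvMor.ofCoeff (LevelSys.trivial Γ) (hmb_homAdd i) (hmb_homAdd_smul i)) i (fun _ => rfl) y
  refine (congrArg (s56gdc_H2e B) (s56gdc_H2_congr m
    (LvMor.ofCoeff (LevelSys.trivial Γ) (hmb_homAdd i) (hmb_homAdd_smul i)) hf hφ y)).trans ?_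
  exact h

/-- Restriction to a subgroup followed by a coefficient map. -/
def s56gdc_mSub (D : Subgroup Γ) {A : Rep.{0} ℤ Γ} {X : Rep.{0} ℤ D} (φ : tt_res D A ⟶ X) :
    LvMor (LevelSys.trivial Γ) (tl_Act A) (LevelSys.trivial D) (tl_Act X) where
  f := D.subtype
  φ := (show tl_Act A →+ tl_Act X from hmb_homAdd φ)
  equivariant d a := hmb_homAdd_smul φ d a
  levels := by
    rintro U rfl
    exact ⟨⊥, rfl, bot_le⟩

/-- Restriction to a subgroup followed by a coefficient map, on Mathlib's `H²`. -/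
theorem s56gdc_H2e_sub (D : Subgroup Γ) {A : Rep.{0} ℤ Γ} {X : Rep.{0} ℤ D}
    (φ : tt_res D A ⟶ X)
    (m : LvMor (LevelSys.trivial Γ) (tl_Act A) (LevelSys.trivial D) (tl_Act X))
    (hf : ∀ d, m.f d = (d : Γ)) (hφ : ∀ x, m.φ x = φ.hom x)
    (y : lvH2 (LevelSys.trivial Γ) (tl_Act A)) :
    s56gdc_H2e X (m.H2 y) =
      (tt_coeffMap φ 2).hom ((tt_resMap D A 2).hom (s56gdc_H2e A y)) := by
  have h := lvH2Equiv_map A X (tl_sf_actEquiv A) (fun _ _ => rfl) (tl_sf_actEquiv X)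
    (fun _ _ => rfl) (s56gdc_mSub D φ) φ (fun _ => rfl) y
  refine (congrArg (s56gdc_H2e X) (s56gdc_H2_congr m (s56gdc_mSub D φ) hf hφ y)).trans ?_
  refine h.trans ?_
  have h2 := hmb_map_subtype D (A := A) (B := X) φ 2
  exact congrArg (fun f => f.hom (s56gdc_H2e A y)) h2

end Abs

variable {p : ℕ} [Fact p.Prime] (M : Rep.{0} (ZMod p) GQ) [FiniteDimensional (ZMod p) M]
  (hsm : s56gw_Smooth M) {S : Finset Nat.Primes} (b : du_Lev S)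
  (ρ : b.Γ →* (s56gd_K0 M hsm).Γ)

/-- `R` at the level `b`. -/
abbrev s56gdc_Rb : Rep.{0} ℤ b.Γ := Rep.res ρ (s56gd_R M hsm)

/-- `F` at the level `b`. -/
abbrev s56gdc_Fb : Rep.{0} ℤ b.Γ := Rep.res ρ (s56gd_F M hsm)

/-- `M'` at the level `b`. -/
abbrev s56gdc_Ab : Rep.{0} ℤ b.Γ := Rep.res ρ (s56gd_A M hsm)

/-- The lattice sequence `0 → R → F → M' → 0` at the level `b`, in the level formalism. -/
def s56gdc_Eb : LvSES b.Γ (tl_Act (s56gdc_Rb M hsm b ρ)) (tl_Act (s56gdc_Fb M hsm b ρ))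
    (tl_Act (s56gdc_Ab M hsm b ρ)) where
  i := ((la_ι (s56gd_A M hsm)).hom : (s56gd_R M hsm).V →+ (s56gd_F M hsm).V)
  π := ((la_π (s56gd_A M hsm)).hom : (s56gd_F M hsm).V →+ (s56gd_A M hsm).V)
  i_equiv g r := Rep.hom_comm_apply (la_ι (s56gd_A M hsm)) (ρ g) r
  π_equiv g f := Rep.hom_comm_apply (la_π (s56gd_A M hsm)) (ρ g) f
  i_inj := dm_la_ι_injective (s56gd_A M hsm)
  π_surj := la_π_surjective (s56gd_A M hsm)
  exact f := ⟨fun h => dm_la_exact (s56gd_A M hsm) h, by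
    rintro ⟨r, rfl⟩
    exact dm_la_π_ι (s56gd_A M hsm) r⟩

variable (q : Nat.Primes) (hρ : ∀ σ : GQ, ρ (b.q σ) = s56gd_pi0 M hsm σ)

/-- The group map `G_q → Γ_b`. -/
abbrev s56gdc_fq : primeLocalGaloisGroup q →* b.Γ := (b.q).comp (primeLocalToGlobal q)

theorem s56gdc_levels (U : Subgroup b.Γ) (_ : U ∈ (LevelSys.trivial b.Γ).levels) :
    ∃ V ∈ (tl_levelsLoc q).levels, V ≤ U.comap (s56gdc_fq b q) := by
  refine ⟨b.L.fixingSubgroup.comap (primeLocalToGlobal q),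
    ⟨b.L.fixingSubgroup, ⟨b.L, inferInstance, rfl⟩, rfl⟩, fun τ hτ => ?_⟩
  rw [Subgroup.mem_comap]
  have h1 : s56gdc_fq b q τ = 1 := (b.q_eq_one_iff _).2 hτ
  rw [h1]
  exact U.one_mem

/-- Restriction-inflation `(Γ_b, Y) → (G_q, Y)` for a `Δ₀`-module `Y`. -/
def s56gdc_morY (Y : Rep.{0} ℤ (s56gd_K0 M hsm).Γ) :
    LvMor (LevelSys.trivial b.Γ) (tl_Act (Rep.res ρ Y)) (tl_levelsLoc q)
      (dm_Yl (s56gd_pi0 M hsm) q Y) where
  f := s56gdc_fq b q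
  φ := AddMonoidHom.id Y.V
  equivariant τ y := by
    show Y.ρ (ρ (b.q (primeLocalToGlobal q τ))) y = Y.ρ (s56gd_pi0 M hsm (primeLocalToGlobal q τ)) y
    rw [hρ]
  levels := s56gdc_levels b q

/-- Restriction-inflation `(Γ_b, M'_b) → (G_q, M')`. -/
def s56gdc_morN' :
    LvMor (LevelSys.trivial b.Γ) (tl_Act (s56gdc_Ab M hsm b ρ)) (tl_levelsLoc q)
      (s56gd_N' M q) where
  f := s56gdc_fq b q
  φ := (s56gd_e M hsm).toAddMonoidHom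
  equivariant τ a := by
    show s56gd_e M hsm ((s56gd_A M hsm).ρ (ρ (b.q (primeLocalToGlobal q τ))) a) =
      (s56gw_dual M).ρ (primeLocalToGlobal q τ) (s56gd_e M hsm a)
    rw [hρ]
    exact s56gd_he M hsm (primeLocalToGlobal q τ) a
  levels := s56gdc_levels b q

/-- The morphism of lattice sequences from the level `b` to the local group at `q`. -/
def s56gdc_t : LvSESMor (s56gdc_Eb M hsm b ρ) (LevelSys.trivial b.Γ)
    (s56gd_Lloc M hsm q) (tl_levelsLoc q) where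
  mA := s56gdc_morY M hsm b ρ q hρ (s56gd_R M hsm)
  mB := s56gdc_morY M hsm b ρ q hρ (s56gd_F M hsm)
  mC := s56gdc_morN' M hsm b ρ q hρ
  fAB := rfl
  fBC := rfl
  comm_i _ := rfl
  comm_π _ := rfl


/-! ### The local homomorphism attached to `ψ : R_b ⟶ J_q(b)` -/

variable (ψ : s56gdc_Rb M hsm b ρ ⟶ id_ARep b.L q)

/-- `τ = pr_q ∘ ψ : R → X_q(b)` as an additive map. -/
def s56gdc_tau : (s56gd_R M hsm).V →+ (il_Xq q b.L).V :=
  (hmb_homAdd (il_pr q b.L)).comp (hmb_homAdd ψ)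

theorem s56gdc_tau_apply (r : (s56gd_R M hsm).V) :
    s56gdc_tau M hsm b ρ q ψ r = (il_pr q b.L).hom (ψ.hom r) := rfl

/-- `τ` is `D_q(b)`-equivariant. -/
theorem s56gdc_tau_equiv (d : ↥(il_D (q : ℕ) b.L)) (r : (s56gd_R M hsm).V) :
    s56gdc_tau M hsm b ρ q ψ ((s56gd_R M hsm).ρ (ρ (d : b.Γ)) r) =
      (il_Xq q b.L).ρ d (s56gdc_tau M hsm b ρ q ψ r) := by
  rw [s56gdc_tau_apply, s56gdc_tau_apply]
  have h1 : ψ.hom ((s56gd_R M hsm).ρ (ρ (d : b.Γ)) r) = (id_ARep b.L q).ρ (d : b.Γ) (ψ.hom r) :=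
    Rep.hom_comm_apply ψ (d : b.Γ) r
  rw [h1]
  exact Rep.hom_comm_apply (il_pr q b.L) d (ψ.hom r)

/-- The element `t_q(ψ) = λ_q ∘ pr_q ∘ ψ ∈ Hom(R, (ℚ̄_q)ˣ)`. -/
def s56gdc_tqHom : s56gd_TRl M hsm q :=
  LvHom.of ((il_lam q b.L).comp (s56gdc_tau M hsm b ρ q ψ))

theorem s56gdc_tqHom_apply (r : (s56gd_R M hsm).V) :
    s56gdc_tqHom M hsm b ρ q ψ r = il_lam q b.L (s56gdc_tau M hsm b ρ q ψ r) := rfl

include hρ in
theorem s56gdc_tqHom_mem :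
    s56gdc_tqHom M hsm b ρ q ψ ∈ lvH0 (G := primeLocalGaloisGroup q) (s56gd_TRl M hsm q) := by
  rw [LvHom.mem_lvH0_iff]
  intro τ r
  rw [dm_Yl_smul]
  show il_lam q b.L (s56gdc_tau M hsm b ρ q ψ ((s56gd_R M hsm).ρ
    (s56gd_pi0 M hsm (primeLocalToGlobal q τ)) r)) = τ • il_lam q b.L (s56gdc_tau M hsm b ρ q ψ r)
  rw [← hρ]
  have h : s56gdc_tau M hsm b ρ q ψ ((s56gd_R M hsm).ρ (ρ (b.q (primeLocalToGlobal q τ))) r) =
      (il_Xq q b.L).ρ (s56gd_locq q (s56gd_Fld.ofLev b) τ) (s56gdc_tau M hsm b ρ q ψ r) :=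
    s56gdc_tau_equiv M hsm b ρ q ψ (s56gd_locq q (s56gd_Fld.ofLev b) τ) r
  rw [h]
  exact il_lam_equiv q b.L τ (s56gd_locq q (s56gd_Fld.ofLev b) τ) rfl _

/-- `t_q(ψ)` as an invariant. -/
def s56gdc_tq : lvH0 (G := primeLocalGaloisGroup q) (s56gd_TRl M hsm q) :=
  ⟨s56gdc_tqHom M hsm b ρ q ψ, s56gdc_tqHom_mem M hsm b ρ q hρ ψ⟩

/-! ### The chain for `t_q(ψ)` -/

/-- Restriction to `D_q(b)` followed by `τ = pr_q ∘ ψ`. -/
def s56gdc_mtau : LvMor (LevelSys.trivial b.Γ) (tl_Act (s56gdc_Rb M hsm b ρ))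
    (LevelSys.trivial ↥(il_D (q : ℕ) b.L)) (tl_Act (il_Xq q b.L)) where
  f := (il_D (q : ℕ) b.L).subtype
  φ := s56gdc_tau M hsm b ρ q ψ
  equivariant d r := s56gdc_tau_equiv M hsm b ρ q ψ d r
  levels := by
    rintro U rfl
    exact ⟨⊥, rfl, bot_le⟩

/-- `δ¹` of the lattice sequence at the level `b`. -/
def s56gdc_d1b : lvH1 (LevelSys.trivial b.Γ) (tl_Act (s56gdc_Ab M hsm b ρ)) →+
    lvH2 (LevelSys.trivial b.Γ) (tl_Act (s56gdc_Rb M hsm b ρ)) :=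
  (s56gdc_Eb M hsm b ρ).δ1 (LevelSys.trivial b.Γ) (sl_isSmooth_trivial _)

/-- **The chain**: `t_q(ψ) ⋆ δ¹(loc_q y') = infl (τ_* res (δ¹ y'))`. -/
theorem s56gdc_star_eq (y' : lvH1 (LevelSys.trivial b.Γ) (tl_Act (s56gdc_Ab M hsm b ρ))) :
    s56gd_star M hsm q (s56gdc_tq M hsm b ρ q hρ ψ)
      (s56gd_d1 M hsm q ((s56gdc_morN' M hsm b ρ q hρ).H1 y')) =
    (s56gd_QX q (s56gd_Fld.ofLev b)).mor.H2 ((s56gdc_mtau M hsm b ρ q ψ).H2
      (s56gdc_d1b M hsm b ρ y')) :=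
  s56gdc_chain (s56gd_Lloc M hsm q) (s56gd_smooth_Fl M hsm q) (s56gdc_Eb M hsm b ρ)
    (sl_isSmooth_trivial _) (s56gdc_t M hsm b ρ q hρ) (s56gd_QX q (s56gd_Fld.ofLev b))
    (s56gdc_mtau M hsm b ρ q ψ) (s56gd_coef M hsm q (s56gdc_tq M hsm b ρ q hρ ψ))
    (fun _ => rfl) (fun _ => rfl) y'

/-- `p` kills `M'` at the level `b`. -/
theorem s56gdc_nsmul_Ab (a : tl_Act (s56gdc_Ab M hsm b ρ)) : p • a = 0 := by
  have h : ∀ a' : (s56gd_A M hsm).V, p • a' = 0 := by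
    intro a'
    apply (s56gd_e M hsm).injective
    rw [map_nsmul, map_zero]
    exact s56gd_nsmul_act (s56gw_dual M) (s56gd_e M hsm a')
  exact h a

/-- `p` kills `δ¹ y'`. -/
theorem s56gdc_nsmul_d1b (y' : lvH1 (LevelSys.trivial b.Γ) (tl_Act (s56gdc_Ab M hsm b ρ))) :
    p • s56gdc_d1b M hsm b ρ y' = 0 := by
  rw [← map_nsmul, lvH1_nsmul_eq_zero (s56gdc_nsmul_Ab M hsm b ρ) y', map_zero]

/-! ### The local term in Mathlib's group cohomology -/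

/-- The class `w_q = τ_* res_{D_q} (δ¹ y') ∈ H²(D_q(b), X_q(b))`. -/
def s56gdc_w (y' : lvH1 (LevelSys.trivial b.Γ) (tl_Act (s56gdc_Ab M hsm b ρ))) :
    groupCohomology (il_Xq q b.L) 2 :=
  s56gdc_H2e (il_Xq q b.L) ((s56gdc_mtau M hsm b ρ q ψ).H2 (s56gdc_d1b M hsm b ρ y'))

/-- `w_q` in terms of Mathlib's restriction and coefficient maps. -/
theorem s56gdc_w_eq (y' : lvH1 (LevelSys.trivial b.Γ) (tl_Act (s56gdc_Ab M hsm b ρ))) :
    s56gdc_w M hsm b ρ q ψ y' =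
      (tt_coeffMap ((Rep.resFunctor (il_D (q : ℕ) b.L).subtype).map ψ ≫ il_pr q b.L) 2).hom
        ((tt_resMap (il_D (q : ℕ) b.L) (s56gdc_Rb M hsm b ρ) 2).hom
          (s56gdc_H2e (s56gdc_Rb M hsm b ρ) (s56gdc_d1b M hsm b ρ y'))) :=
  s56gdc_H2e_sub (il_D (q : ℕ) b.L) (A := s56gdc_Rb M hsm b ρ) (X := il_Xq q b.L)
    ((Rep.resFunctor (il_D (q : ℕ) b.L).subtype).map ψ ≫ il_pr q b.L)
    (s56gdc_mtau M hsm b ρ q ψ) (fun _ => rfl) (fun _ => rfl) _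

theorem s56gdc_w_pprimary (y' : lvH1 (LevelSys.trivial b.Γ) (tl_Act (s56gdc_Ab M hsm b ρ))) :
    tt_IsPPrimary p (s56gdc_w M hsm b ρ q ψ y') := by
  refine ⟨1, ?_⟩
  rw [pow_one]
  unfold s56gdc_w
  rw [← map_nsmul, ← map_nsmul, s56gdc_nsmul_d1b, map_zero, map_zero]

theorem s56gdc_inflX_w (y' : lvH1 (LevelSys.trivial b.Γ) (tl_Act (s56gdc_Ab M hsm b ρ))) :
    s56gd_inflX q (s56gd_Fld.ofLev b) (s56gdc_w M hsm b ρ q ψ y') =
      (s56gd_QX q (s56gd_Fld.ofLev b)).mor.H2 ((s56gdc_mtau M hsm b ρ q ψ).H2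
        (s56gdc_d1b M hsm b ρ y')) := by
  show (s56gd_QX q (s56gd_Fld.ofLev b)).mor.H2
    ((s56gdc_H2e (il_Xq q b.L)).symm (s56gdc_H2e (il_Xq q b.L)
      ((s56gdc_mtau M hsm b ρ q ψ).H2 (s56gdc_d1b M hsm b ρ y')))) = _
  rw [AddEquiv.symm_apply_apply]

/-- **The local term**: `B_q(δ⁰ t_q(ψ), loc_q y') = inv_q(w_q)`. -/
theorem s56gdc_local (I : s56gd_LocInv p q)
    (y' : lvH1 (LevelSys.trivial b.Γ) (tl_Act (s56gdc_Ab M hsm b ρ))) :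
    s56gd_Bq M hsm q I (s56gd_d0 M hsm q (s56gdc_tq M hsm b ρ q hρ ψ))
      ((s56gdc_morN' M hsm b ρ q hρ).H1 y') =
    (id_levPq p b q).invTop (s56gdc_w M hsm b ρ q ψ y') := by
  rw [s56gd_Bq_spec]
  have hstar := s56gdc_star_eq M hsm b ρ q hρ ψ y'
  have hw := s56gdc_inflX_w M hsm b ρ q ψ y'
  have hmem : s56gd_inflX q (s56gd_Fld.ofLev b) (s56gdc_w M hsm b ρ q ψ y') ∈
      fd_pPrimary p (lvH2 (tl_levelsLoc q) (tl_locUnits q)) := by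
    rw [hw, ← hstar]
    exact s56gd_star_d1_mem M hsm q _ _
  have h := I.spec (s56gd_Fld.ofLev b) (s56gdc_w M hsm b ρ q ψ y')
    (s56gdc_w_pprimary M hsm b ρ q ψ y') hmem
  rw [s56gd_Pq_ofLev] at h
  refine Eq.trans ?_ h
  congr 1
  exact Subtype.ext (hstar.trans hw.symm)

end

end Fermat.Agent.S56
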