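import Fermat.Agent.S56.GW.Dual.D6.Local
import Fermat.Agent.S56.GW.Dual.D6.Core

/-!
# S56, [GW-DUAL] cell D6: global reciprocity from the finite-level presentation of `x`
(prefix `s56gdc_`)

* `s56gdc_D5a_stmt` : the input from cell [D5]: every `x ∈ H¹(G_S, M)` is, at arbitrarily large
  levels `b`, of the form `loc_q x = δ⁰ (λ_q ∘ pr_q ∘ ψ_q)` with `ψ_q : R_b ⟶ J_q(b)` and
  `Σ_q j_q ∘ ψ_q = φ_F ∘ ι` for some `φ_F : F_b ⟶ C(b)`;
* `s56gdc_main : s56gdc_D5a_stmt → s56gd_Rec_stmt`.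
-/

set_option autoImplicit false
set_option linter.unusedSectionVars false

open CategoryTheory groupCohomology ExtCitation

namespace Fermat.Agent.S56

open Fermat.Agent.S55

local notation "Qbar" => AlgebraicClosure ℚ
local notation "GQ" => (AlgebraicClosure ℚ ≃ₐ[ℚ] AlgebraicClosure ℚ)

noncomputable section

section Global

variable {p : ℕ} [Fact p.Prime] (M : Rep.{0} (ZMod p) GQ) [FiniteDimensional (ZMod p) M]
  (hsm : s56gw_Smooth M) {S : Finset Nat.Primes} (b : du_Lev S)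
  (ρ : b.Γ →* (s56gd_K0 M hsm).Γ) (hρ : ∀ σ : GQ, ρ (b.q σ) = s56gd_pi0 M hsm σ)

/-- The finite quotient `Γ_b` of `G_ℚ` for the module `M'`. -/
def s56gdc_QN' : LvQuot (tl_levelsS S) (tl_Act (s56gw_dual M)) b.Γ
    (tl_Act (s56gdc_Ab M hsm b ρ)) where
  q := b.q
  q_surj := b.q_surjective
  level := ⟨b.L.fixingSubgroup, b.fixingSubgroup_mem_levels, b.ker_q.ge⟩
  φ := (s56gd_e M hsm).toAddMonoidHom
  φ_inj := (s56gd_e M hsm).injective
  equivariant σ a := by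
    show s56gd_e M hsm ((s56gd_A M hsm).ρ (ρ (b.q σ)) a) =
      (s56gw_dual M).ρ σ (s56gd_e M hsm a)
    rw [hρ]
    exact s56gd_he M hsm σ a
  range_eq x _ := ⟨(s56gd_e M hsm).symm x, (s56gd_e M hsm).apply_symm_apply x⟩

/-- Localisation of a class inflated from the level `b`. -/
theorem s56gdc_lvloc_QN' (q : Nat.Primes)
    (y' : lvH1 (LevelSys.trivial b.Γ) (tl_Act (s56gdc_Ab M hsm b ρ))) :
    s56gd_lvloc (s56gw_dual M) S q ((s56gdc_QN' M hsm b ρ hρ).mor.H1 y') =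
      (s56gdc_morN' M hsm b ρ q hρ).H1 y' := by
  have h1 := LvMor.H1_comp (tl_locMor S (primeLocalToGlobal q) (s56gw_dual M))
    (s56gdc_QN' M hsm b ρ hρ).mor y'
  have h2 := s56gdc_H1_congr
    (((tl_locMor S (primeLocalToGlobal q) (s56gw_dual M)).comp (s56gdc_QN' M hsm b ρ hρ).mor :
      LvMor (LevelSys.trivial b.Γ) (tl_Act (s56gdc_Ab M hsm b ρ)) (tl_levelsLoc q)
        (s56gd_N' M q)))
    (s56gdc_morN' M hsm b ρ q hρ) (fun _ => rfl) (fun _ => rfl) y'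
  exact h1.symm.trans h2

/-- `ι : R_b ⟶ F_b`. -/
abbrev s56gdc_iota : s56gdc_Rb M hsm b ρ ⟶ s56gdc_Fb M hsm b ρ :=
  (Rep.resFunctor ρ).map (la_ι (s56gd_A M hsm))

/-- `z = δ¹ y' ∈ H²(Γ_b, R_b)` in Mathlib's cohomology. -/
def s56gdc_z (y' : lvH1 (LevelSys.trivial b.Γ) (tl_Act (s56gdc_Ab M hsm b ρ))) :
    groupCohomology (s56gdc_Rb M hsm b ρ) 2 :=
  s56gdc_H2e (s56gdc_Rb M hsm b ρ) (s56gdc_d1b M hsm b ρ y')

theorem s56gdc_z_pprimary (y' : lvH1 (LevelSys.trivial b.Γ) (tl_Act (s56gdc_Ab M hsm b ρ))) :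
    tt_IsPPrimary p (s56gdc_z M hsm b ρ y') := by
  refine ⟨1, ?_⟩
  rw [pow_one]
  unfold s56gdc_z
  rw [← map_nsmul, s56gdc_nsmul_d1b, map_zero]

theorem s56gdc_iota_z (y' : lvH1 (LevelSys.trivial b.Γ) (tl_Act (s56gdc_Ab M hsm b ρ))) :
    (tt_coeffMap (s56gdc_iota M hsm b ρ) 2).hom (s56gdc_z M hsm b ρ y') = 0 := by
  have h := s56gdc_H2e_coeff (s56gdc_iota M hsm b ρ)
    ((s56gdc_Eb M hsm b ρ).mi (LevelSys.trivial b.Γ)) (fun _ => rfl) (fun _ => rfl)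
    (s56gdc_d1b M hsm b ρ y')
  have h0 : ((s56gdc_Eb M hsm b ρ).mi (LevelSys.trivial b.Γ)).H2 (s56gdc_d1b M hsm b ρ y') = 0 :=
    ((s56gdc_Eb M hsm b ρ).exact_H2A (LevelSys.trivial b.Γ) (sl_isSmooth_trivial _) _).2
      ⟨y', rfl⟩
  rw [h0, map_zero] at h
  exact h.symm

end Global

/-- **The input from cell [D5]**: every class `x ∈ H¹(G_S, M)` is, at arbitrarily large levels
`b`, presented by morphisms `ψ_q : R_b ⟶ J_q(b)` whose sum extends to `F_b`. -/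
def s56gdc_D5a_stmt : Prop :=
  ∀ (p : ℕ) [Fact p.Prime] (hp2 : p ≠ 2)
    (M : Rep.{0} (ZMod p) GQ) [FiniteDimensional (ZMod p) M] (hsm : s56gw_Smooth M)
    (S : Finset Nat.Primes) (hpS : pPrime p ∈ S), s56gw_UnrOut S M →
    ∀ (x : s56gd_HS M S) (a₀ : du_Lev S),
    ∃ (b : du_Lev S) (_ : a₀ ≤ b) (ρ : b.Γ →* (s56gd_K0 M hsm).Γ)
      (hρ : ∀ σ : GQ, ρ (b.q σ) = s56gd_pi0 M hsm σ)
      (ψ : ∀ q : ↥S, s56gdc_Rb M hsm b ρ ⟶ ((s56gd_seam hp2 S hpS).dat b).Jq q)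
      (φF : s56gdc_Fb M hsm b ρ ⟶ ((s56gd_seam hp2 S hpS).dat b).C),
      (∑ q, ψ q ≫ ((s56gd_seam hp2 S hpS).dat b).j q = s56gdc_iota M hsm b ρ ≫ φF) ∧
      ∀ q : ↥S, s56gd_lvloc M S q.1 x =
        s56gd_d0 M hsm q.1 (s56gdc_tq M hsm b ρ q.1 hρ (ψ q))

/-- **[D6]: global reciprocity** from the finite-level presentation of [D5]. -/
theorem s56gdc_main (h5 : s56gdc_D5a_stmt) : s56gd_Rec_stmt := by
  intro p _ hp2 M _ hsm I S hpS hur x y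
  obtain ⟨a₁⟩ := (inferInstance : Nonempty (du_Lev S))
  obtain ⟨W, hW, -, -, hWy⟩ := lvH1_exists_level y a₁.fixingSubgroup_mem_levels
  obtain ⟨a₀, -, ha₀⟩ := dm_ql_exists_ge a₁ hW
  obtain ⟨b, hab, ρ, hρ, ψ, φF, hsum, hloc⟩ := h5 p hp2 M hsm S hpS hur x a₀
  have hker : (s56gdc_QN' M hsm b ρ hρ).q.ker ≤ W := by
    show b.q.ker ≤ W
    rw [b.ker_q]
    exact le_trans (IntermediateField.fixingSubgroup_antitone hab) ha₀
  obtain ⟨y', rfl⟩ := hWy (s56gdc_QN' M hsm b ρ hρ) hker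
  have hterm : ∀ q : ↥S, s56gd_Bq M hsm q.1 (I q.1) (s56gd_lvloc M S q.1 x)
      (s56gd_lvloc (s56gw_dual M) S q.1 ((s56gdc_QN' M hsm b ρ hρ).mor.H1 y')) =
      (((s56gd_seam hp2 S hpS).dat b).Pq q).invTop ((tt_coeffMap
        ((Rep.resFunctor (((s56gd_seam hp2 S hpS).dat b).D q).subtype).map (ψ q) ≫
          ((s56gd_seam hp2 S hpS).dat b).pr q) 2).hom
        ((tt_resMap (((s56gd_seam hp2 S hpS).dat b).D q) (s56gdc_Rb M hsm b ρ) 2).hom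
          (s56gdc_z M hsm b ρ y'))) := by
    intro q
    have e1 := s56gdc_local M hsm b ρ q.1 hρ (ψ q) (I q.1) y'
    have e2 := s56gdc_w_eq M hsm b ρ q.1 (ψ q) y'
    rw [hloc q, s56gdc_lvloc_QN']
    exact e1.trans (congrArg (id_levPq p b q.1).invTop e2)
  rw [← Finset.sum_coe_sort S]
  simp_rw [hterm]
  have hcore := s56gdc_core ((s56gd_seam hp2 S hpS).dat b) Finset.univ
    (s56gdc_iota M hsm b ρ) ψ φF hsum (s56gdc_z M hsm b ρ y')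
    (s56gdc_z_pprimary M hsm b ρ y') (s56gdc_iota_z M hsm b ρ y')
  exact hcore

end

end Fermat.Agent.S56
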