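import Fermat.Agent.S56.GW.Dual.D6.Local
import Fermat.Agent.S56.GW.Dual.D6.Core
import Fermat.Agent.S55.Dual.ModulesLevel
import Fermat.Agent.S55.Dual.XDelta

/-!
# S56, [GW-DUAL]: the sum formula for `p`-primary classes of `H²(G_S, E_S)` (prefix `s56gds_`)

`s56gds_sum`: for a `p`-primary class `w ∈ H²(G_S, E_S)` (level cohomology) the sum over `q ∈ S`
of the local invariants of `loc_q w ∈ H²(G_q, (ℚ̄_q)ˣ)` vanishes.
-/

set_option autoImplicit false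
set_option linter.unusedSectionVars false

open CategoryTheory groupCohomology ExtCitation

namespace Fermat.Agent.S56

open Fermat.Agent.S55

local notation "Qbar" => AlgebraicClosure ℚ
local notation "GQ" => (AlgebraicClosure ℚ ≃ₐ[ℚ] AlgebraicClosure ℚ)

noncomputable section

/-- The localisation `(G_ℚ, E_S) → (G_q, (ℚ̄_q)ˣ)`. -/
def s56gds_locES (S : Finset Nat.Primes) (q : Nat.Primes) :
    LvMor (tl_levelsS S) (dm_ES S) (tl_levelsLoc q) (tl_locUnits q) where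
  f := primeLocalToGlobal q
  φ := dm_ESloc S q
  equivariant := dm_ESloc_smul S q
  levels := fun U hU =>
    ⟨U.comap (primeLocalToGlobal q), ⟨U, tl_levelsS_le_levelsAll hU, rfl⟩, le_rfl⟩

section Seam

variable {p : ℕ} {S : Finset Nat.Primes} (𝔖 : du_Seam p S)

/-- **The finite quotient `Γ_a` of `G_ℚ` for the module `E_S`.** -/
def s56gds_QE (a : du_Lev S) : LvQuot (tl_levelsS S) (dm_ES S) a.Γ (tl_Act (𝔖.E a)) :=
  tl_sf_quot S a.L a.unr (dm_ql_incl 𝔖 a) (dm_ql_incl_injective 𝔖 a)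
    (fun σ e => dm_ql_incl_smul 𝔖 a σ e) (dm_ql_incl_range 𝔖 a)

theorem s56gds_QE_ker (a : du_Lev S) : (s56gds_QE 𝔖 a).q.ker = a.L.fixingSubgroup := a.ker_q

/-- Every `p`-primary class of `H²(G_S, E_S)` is the inflation of a `p`-primary class of a finite
level. -/
theorem s56gds_exists_level (w : lvH2 (tl_levelsS S) (dm_ES S)) (hw : tt_IsPPrimary p w) :
    ∃ (b : du_Lev S) (y : lvH2 (LevelSys.trivial b.Γ) (tl_Act (𝔖.E b))),
      (s56gds_QE 𝔖 b).mor.H2 y = w ∧ tt_IsPPrimary p y := by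
  obtain ⟨k, hk⟩ := hw
  obtain ⟨a₀⟩ := (inferInstance : Nonempty (du_Lev S))
  have hU₀ := a₀.fixingSubgroup_mem_levels
  obtain ⟨W, hW, -, -, hWw⟩ := lvH2_exists_level (dm_isSmooth_ES S) w hU₀
  obtain ⟨a₁, -, ha₁⟩ := dm_ql_exists_ge a₀ hW
  obtain ⟨y₁, hy₁⟩ := hWw (s56gds_QE 𝔖 a₁) (by rw [s56gds_QE_ker]; exact ha₁)
  have hpy : (s56gds_QE 𝔖 a₁).mor.H2 (p ^ k • y₁) = 0 := by rw [map_nsmul, hy₁, hk]
  obtain ⟨W', hW', -, -, hW'y⟩ :=
    (s56gds_QE 𝔖 a₁).exists_level_forall_trans_H2_eq_zero (dm_isSmooth_ES S) (p ^ k • y₁) hpy hU₀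
  obtain ⟨b, hab, hb⟩ := dm_ql_exists_ge a₁ hW'
  have hker : (s56gds_QE 𝔖 b).q.ker ≤ (s56gds_QE 𝔖 a₁).q.ker := by
    rw [s56gds_QE_ker, s56gds_QE_ker]
    exact IntermediateField.fixingSubgroup_antitone hab
  have h0 : ((s56gds_QE 𝔖 a₁).trans (s56gds_QE 𝔖 b) hker).H2 (p ^ k • y₁) = 0 :=
    hW'y (s56gds_QE 𝔖 b) ((s56gds_QE 𝔖 a₁).trans (s56gds_QE 𝔖 b) hker)
      ((s56gds_QE 𝔖 a₁).trans_f_q (s56gds_QE 𝔖 b) hker)
      ((s56gds_QE 𝔖 a₁).φ_trans_φ (s56gds_QE 𝔖 b) hker)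
      (by rw [s56gds_QE_ker]; exact hb)
  refine ⟨b, ((s56gds_QE 𝔖 a₁).trans (s56gds_QE 𝔖 b) hker).H2 y₁, ?_, k, ?_⟩
  · rw [(s56gds_QE 𝔖 a₁).H2_trans (s56gds_QE 𝔖 b) _
      ((s56gds_QE 𝔖 a₁).trans_f_q (s56gds_QE 𝔖 b) hker)
      ((s56gds_QE 𝔖 a₁).φ_trans_φ (s56gds_QE 𝔖 b) hker), hy₁]
  · rw [← map_nsmul, h0]

end Seam

section Concrete

variable {p : ℕ} [Fact p.Prime] (hp2 : p ≠ 2) (S : Finset Nat.Primes) (hpS : pPrime p ∈ S)
  (b : du_Lev S) (q : ↥S)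

/-- `τ_q = pr_q ∘ res ε_q : E(b) → X_q(b)`. -/
abbrev s56gds_tau : tt_res (((s56gd_seam hp2 S hpS).dat b).D q) ((s56gd_seam hp2 S hpS).E b) ⟶
    ((s56gd_seam hp2 S hpS).dat b).Xq q :=
  (Rep.resFunctor (((s56gd_seam hp2 S hpS).dat b).D q).subtype).map
    ((s56gd_seam hp2 S hpS).ε b q) ≫ ((s56gd_seam hp2 S hpS).dat b).pr q

/-- Restriction to `D_q(b)` followed by `τ_q`. -/
abbrev s56gds_mtau : LvMor (LevelSys.trivial b.Γ) (tl_Act ((s56gd_seam hp2 S hpS).E b))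
    (LevelSys.trivial ↥(((s56gd_seam hp2 S hpS).dat b).D q))
    (tl_Act (((s56gd_seam hp2 S hpS).dat b).Xq q)) :=
  s56gdc_mSub (((s56gd_seam hp2 S hpS).dat b).D q) (s56gds_tau hp2 S hpS b q)

/-- Localisation of a class inflated from the level `b`. -/
theorem s56gds_loc_infl
    (y : lvH2 (LevelSys.trivial b.Γ) (tl_Act ((s56gd_seam hp2 S hpS).E b))) :
    (s56gds_locES S q.1).H2 ((s56gds_QE (s56gd_seam hp2 S hpS) b).mor.H2 y) =
      (s56gd_QX q.1 (s56gd_Fld.ofLev b)).mor.H2 ((s56gds_mtau hp2 S hpS b q).H2 y) := by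
  have h1 := LvMor.H2_comp (s56gds_locES S q.1) (s56gds_QE (s56gd_seam hp2 S hpS) b).mor y
  have h2 := LvMor.H2_comp (s56gd_QX q.1 (s56gd_Fld.ofLev b)).mor (s56gds_mtau hp2 S hpS b q) y
  have h3 := s56gdc_H2_congr
    ((s56gds_locES S q.1).comp (s56gds_QE (s56gd_seam hp2 S hpS) b).mor)
    ((s56gd_QX q.1 (s56gd_Fld.ofLev b)).mor.comp (s56gds_mtau hp2 S hpS b q))
    (fun _ => rfl) (fun e => dm_ql_ESloc_incl (s56gd_seam hp2 S hpS) q e) y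
  exact h1.symm.trans (h3.trans h2)

/-- The class `w_q ∈ H²(D_q(b), X_q(b))`. -/
def s56gds_w (y : lvH2 (LevelSys.trivial b.Γ) (tl_Act ((s56gd_seam hp2 S hpS).E b))) :
    groupCohomology (((s56gd_seam hp2 S hpS).dat b).Xq q) 2 :=
  s56gdc_H2e (((s56gd_seam hp2 S hpS).dat b).Xq q) ((s56gds_mtau hp2 S hpS b q).H2 y)

theorem s56gds_w_eq (y : lvH2 (LevelSys.trivial b.Γ) (tl_Act ((s56gd_seam hp2 S hpS).E b))) :
    s56gds_w hp2 S hpS b q y =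
      (tt_coeffMap (s56gds_tau hp2 S hpS b q) 2).hom
        ((tt_resMap (((s56gd_seam hp2 S hpS).dat b).D q) ((s56gd_seam hp2 S hpS).E b) 2).hom
          (s56gdc_H2e ((s56gd_seam hp2 S hpS).E b) y)) :=
  s56gdc_H2e_sub (((s56gd_seam hp2 S hpS).dat b).D q) (s56gds_tau hp2 S hpS b q)
    (s56gds_mtau hp2 S hpS b q) (fun _ => rfl) (fun _ => rfl) y

theorem s56gds_w_pprimary
    (y : lvH2 (LevelSys.trivial b.Γ) (tl_Act ((s56gd_seam hp2 S hpS).E b)))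
    (hy : tt_IsPPrimary p y) : tt_IsPPrimary p (s56gds_w hp2 S hpS b q y) := by
  obtain ⟨k, hk⟩ := hy
  refine ⟨k, ?_⟩
  unfold s56gds_w
  rw [← map_nsmul, ← map_nsmul, hk, map_zero, map_zero]

theorem s56gds_inflX_w
    (y : lvH2 (LevelSys.trivial b.Γ) (tl_Act ((s56gd_seam hp2 S hpS).E b))) :
    s56gd_inflX q.1 (s56gd_Fld.ofLev b) (s56gds_w hp2 S hpS b q y) =
      (s56gds_locES S q.1).H2 ((s56gds_QE (s56gd_seam hp2 S hpS) b).mor.H2 y) := by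
  rw [s56gds_loc_infl]
  show (s56gd_QX q.1 (s56gd_Fld.ofLev b)).mor.H2
    ((s56gdc_H2e (((s56gd_seam hp2 S hpS).dat b).Xq q)).symm
      (s56gdc_H2e (((s56gd_seam hp2 S hpS).dat b).Xq q)
        ((s56gds_mtau hp2 S hpS b q).H2 y))) = _
  rw [AddEquiv.symm_apply_apply]

end Concrete

/-! ### The sum formula -/

/-- `Σ_q j_q ∘ ε_q = 0`. -/
theorem s56gds_eps_j {p : ℕ} {S : Finset Nat.Primes} (𝔖 : du_Seam p S) (b : du_Lev S) :
    ∑ q : ↥S, 𝔖.ε b q ≫ (𝔖.dat b).j q = 0 := by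
  refine Rep.hom_ext (DFunLike.ext _ _ fun e => ?_)
  rw [xd_sum_hom]
  exact (𝔖.ε_exact b _).2 ⟨e, fun _ => rfl⟩

/-- The localisation of a `p`-primary class is `p`-primary. -/
theorem s56gds_mem {p : ℕ} {S : Finset Nat.Primes} (w : lvH2 (tl_levelsS S) (dm_ES S))
    (hw : tt_IsPPrimary p w) (q : Nat.Primes) :
    (s56gds_locES S q).H2 w ∈ fd_pPrimary p (lvH2 (tl_levelsLoc q) (tl_locUnits q)) := by
  obtain ⟨k, hk⟩ := hw
  exact ⟨k, by rw [← map_nsmul, hk, map_zero]⟩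

/-- **The sum formula**: for a `p`-primary class `w ∈ H²(G_S, E_S)` the sum over `q ∈ S` of the
local invariants of `loc_q w` vanishes. -/
theorem s56gds_sum {p : ℕ} [Fact p.Prime] (hp2 : p ≠ 2) (S : Finset Nat.Primes)
    (hpS : pPrime p ∈ S) (I : ∀ q : Nat.Primes, s56gd_LocInv p q)
    (w : lvH2 (tl_levelsS S) (dm_ES S)) (hw : tt_IsPPrimary p w)
    (hmem : ∀ q : Nat.Primes,
      (s56gds_locES S q).H2 w ∈ fd_pPrimary p (lvH2 (tl_levelsLoc q) (tl_locUnits q))) :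
    ∑ q ∈ S, (I q).inv ⟨(s56gds_locES S q).H2 w, hmem q⟩ = 0 := by
  obtain ⟨b, y, rfl, hy⟩ := s56gds_exists_level (s56gd_seam hp2 S hpS) w hw
  have hz : tt_IsPPrimary p (s56gdc_H2e ((s56gd_seam hp2 S hpS).E b) y) := by
    obtain ⟨k, hk⟩ := hy
    exact ⟨k, by rw [← map_nsmul, hk, map_zero]⟩
  have hterm : ∀ q : ↥S,
      (I q.1).inv ⟨(s56gds_locES S q.1).H2
        ((s56gds_QE (s56gd_seam hp2 S hpS) b).mor.H2 y), hmem q.1⟩ =
      (((s56gd_seam hp2 S hpS).dat b).Pq q).invTop ((tt_coeffMap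
        ((Rep.resFunctor (((s56gd_seam hp2 S hpS).dat b).D q).subtype).map
          ((s56gd_seam hp2 S hpS).ε b q) ≫ ((s56gd_seam hp2 S hpS).dat b).pr q) 2).hom
        ((tt_resMap (((s56gd_seam hp2 S hpS).dat b).D q) ((s56gd_seam hp2 S hpS).E b) 2).hom
          (s56gdc_H2e ((s56gd_seam hp2 S hpS).E b) y))) := by
    intro q
    have hm : s56gd_inflX q.1 (s56gd_Fld.ofLev b) (s56gds_w hp2 S hpS b q y) ∈
        fd_pPrimary p (lvH2 (tl_levelsLoc q.1) (tl_locUnits q.1)) := by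
      rw [s56gds_inflX_w]
      exact hmem q.1
    have h := (I q.1).spec (s56gd_Fld.ofLev b) (s56gds_w hp2 S hpS b q y)
      (s56gds_w_pprimary hp2 S hpS b q y hy) hm
    have e2 := s56gds_w_eq hp2 S hpS b q y
    refine Eq.trans ?_ (h.trans (congrArg _ e2))
    congr 1
    exact Subtype.ext (s56gds_inflX_w hp2 S hpS b q y).symm
  rw [← Finset.sum_coe_sort S]
  simp_rw [hterm]
  refine s56gdc_core ((s56gd_seam hp2 S hpS).dat b) Finset.univ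
    (0 : (s56gd_seam hp2 S hpS).E b ⟶ ((s56gd_seam hp2 S hpS).dat b).C)
    ((s56gd_seam hp2 S hpS).ε b) (𝟙 _) ?_ _ hz ?_
  · rw [s56gds_eps_j]
    exact Limits.zero_comp.symm
  · rw [ld_coeffMap_zero]
    rfl

end

end Fermat.Agent.S56
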